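import Mathlib

/-!
# Inflation–restriction in degree 2: the cochain-level core

Pure function-level statements (no category theory): `ρ : Representation k G A`, `S` a normal
subgroup of `G` with `H¹(S, A) = 0` (stated on cocycles).

* `exists_inflated_of_res_coboundary`: a 2-cocycle of `G` whose restriction to `S` is a coboundary
  is cohomologous to a 2-cocycle which is `S`-bi-invariant with values in `A^S`.
* `exists_invariant_cochain_of_inf_coboundary`: if the inflation of a 2-cocycle of `G ⧸ S` is the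
  coboundary of `c`, then `c` can be corrected by a 0-coboundary to an `S`-invariant cochain with
  values in `A^S`.
-/

set_option autoImplicit false
set_option linter.unusedSectionVars false
set_option linter.unusedSimpArgs false

namespace Fermat.Agent.S55.H954

variable {k G A : Type*} [CommRing k] [Group G] [AddCommGroup A] [Module k A]

/-- 2-cocycle identity for `f : G × G → A`. -/
def IsTwoCocycle (ρ : Representation k G A) (f : G × G → A) : Prop :=
  ∀ g h j : G, f (g * h, j) + f (g, h) = ρ g (f (h, j)) + f (g, h * j)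

/-- The coboundary of a 1-cochain. -/
def dOne (ρ : Representation k G A) (c : G → A) : G × G → A :=
  fun p => ρ p.1 (c p.2) - c (p.1 * p.2) + c p.1

lemma dOne_apply (ρ : Representation k G A) (c : G → A) (g h : G) :
    dOne ρ c (g, h) = ρ g (c h) - c (g * h) + c g := rfl

lemma isTwoCocycle_dOne (ρ : Representation k G A) (c : G → A) : IsTwoCocycle ρ (dOne ρ c) := by
  intro g h j
  simp only [dOne_apply, map_add, map_sub, map_mul, Module.End.mul_apply, mul_assoc]
  abel

lemma IsTwoCocycle.sub {ρ : Representation k G A} {f f' : G × G → A}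
    (hf : IsTwoCocycle ρ f) (hf' : IsTwoCocycle ρ f') : IsTwoCocycle ρ (f - f') := by
  intro g h j
  have h1 := hf g h j
  have h2 := hf' g h j
  simp only [Pi.sub_apply, map_sub]
  rw [sub_add_sub_comm, h1, h2]; abel

/-- `H¹(S, A) = 0`, on the level of cocycles. -/
def HOneVanishes (ρ : Representation k G A) (S : Subgroup G) : Prop :=
  ∀ w : S → A, (∀ s t : S, w (s * t) = ρ s (w t) + w s) → ∃ a : A, ∀ s : S, w s = ρ s a - a


section Rep

variable (S : Subgroup G) [S.Normal]

open Classical in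
/-- A coset representative function, normalised to be `1` on `S`. -/
noncomputable def cosetRep (g : G) : G :=
  if g ∈ S then 1 else (QuotientGroup.mk (s := S) g).out

lemma cosetRep_of_mem {s : G} (hs : s ∈ S) : cosetRep S s = 1 := by
  simp [cosetRep, hs]

lemma cosetRep_inv_mul_mem (g : G) : (cosetRep S g)⁻¹ * g ∈ S := by
  unfold cosetRep
  split_ifs with h
  · simpa using h
  · exact QuotientGroup.eq.1 (QuotientGroup.out_eq' (QuotientGroup.mk (s := S) g))

lemma mul_cosetRep_inv_mem (g : G) : g * (cosetRep S g)⁻¹ ∈ S := by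
  have h := cosetRep_inv_mul_mem S g
  have := Subgroup.Normal.conj_mem ‹S.Normal› _ h (cosetRep S g)
  simpa [mul_assoc] using this

lemma cosetRep_mul_right (g : G) {s : G} (hs : s ∈ S) : cosetRep S (g * s) = cosetRep S g := by
  unfold cosetRep
  have hmem : g * s ∈ S ↔ g ∈ S := Subgroup.mul_mem_cancel_right S hs
  have hq : (QuotientGroup.mk (s := S) (g * s)) = QuotientGroup.mk g := by
    rw [QuotientGroup.eq]
    simpa [mul_assoc] using S.inv_mem hs
  rw [hq]
  by_cases h : g ∈ S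
  · rw [if_pos h, if_pos (hmem.2 h)]
  · rw [if_neg h, if_neg (fun h' => h (hmem.1 h'))]

lemma cosetRep_mul_left (g : G) {s : G} (hs : s ∈ S) : cosetRep S (s * g) = cosetRep S g := by
  have : s * g = g * (g⁻¹ * s * g) := by group
  rw [this]
  exact cosetRep_mul_right S g (Subgroup.Normal.conj_mem' ‹S.Normal› _ hs _)

end Rep

section Steps

variable (ρ : Representation k G A) (S : Subgroup G) [S.Normal]

/-- Step 0: make the restriction to `S × S` vanish. -/
lemma step0 {f : G × G → A} (φ : S → A)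
    (hφ : ∀ s t : S, f (s, t) = ρ s (φ t) - φ (s * t) + φ s) :
    ∃ c : G → A, ∀ s ∈ S, ∀ t ∈ S, (f - dOne ρ c) (s, t) = 0 := by
  classical
  refine ⟨fun g => if h : g ∈ S then φ ⟨g, h⟩ else 0, fun s hs t ht => ?_⟩
  have := hφ ⟨s, hs⟩ ⟨t, ht⟩
  simp only [Pi.sub_apply, dOne_apply, hs, ht, S.mul_mem hs ht, dif_pos]
  simp only [Subgroup.coe_mk] at this
  rw [this]
  simp

/-- Step 1: make `f (s, g)` vanish for `s ∈ S`. -/
lemma step1 {f : G × G → A} (hf : IsTwoCocycle ρ f)
    (h0 : ∀ s ∈ S, ∀ t ∈ S, f (s, t) = 0) :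
    ∃ c : G → A, ∀ s ∈ S, ∀ g : G, (f - dOne ρ c) (s, g) = 0 := by
  refine ⟨fun g => - f (g * (cosetRep S g)⁻¹, cosetRep S g), fun s hs g => ?_⟩
  have ht := mul_cosetRep_inv_mem S g
  set r := cosetRep S g with hr
  set t := g * r⁻¹ with htdef
  have hg : g = t * r := by simp [htdef]
  have hcoc := hf s t r
  rw [h0 s hs t ht, add_zero, ← hg] at hcoc
  simp only [Pi.sub_apply, dOne_apply, cosetRep_mul_left S g hs, cosetRep_of_mem S hs]
  rw [← hr]
  have e1 : s * g * r⁻¹ = s * t := by simp [htdef, mul_assoc]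
  have e2 : f (s * 1⁻¹, (1 : G)) = 0 := by simpa using h0 s hs 1 S.one_mem
  rw [e1, e2, hcoc, map_neg]
  abel

/-- For a cocycle vanishing on `S × G`, the functions `s ↦ ρ g⁻¹ (f (g, s))` are 1-cocycles of
`S`. -/
lemma isOneCocycle_of_vanish_left {f : G × G → A} (hf : IsTwoCocycle ρ f)
    (h1 : ∀ s ∈ S, ∀ g : G, f (s, g) = 0) (g : G) (s t : S) :
    ρ g⁻¹ (f (g, ((s * t : S) : G))) = ρ s (ρ g⁻¹ (f (g, (t : G)))) + ρ g⁻¹ (f (g, (s : G))) := by
  -- (g, s, t): f (g s, t) + f (g, s) = ρ g (f (s, t)) + f (g, s t)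
  have c1 := hf g s t
  rw [h1 s s.2 t, map_zero, zero_add] at c1
  -- (g s g⁻¹, g, t): f (g s, t) + f (g s g⁻¹, g) = ρ (g s g⁻¹) (f (g, t)) + f (g s g⁻¹, g t)
  have hconj : g * s * g⁻¹ ∈ S := Subgroup.Normal.conj_mem ‹S.Normal› _ s.2 g
  have c2 := hf (g * s * g⁻¹) g t
  rw [h1 _ hconj g, h1 _ hconj (g * t), add_zero, add_zero] at c2
  have e : g * s * g⁻¹ * g = g * s := by group
  rw [e] at c2
  have hfgst : f (g, (s : G) * t) = ρ (g * s * g⁻¹) (f (g, (t : G))) + f (g, (s : G)) := by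
    rw [← c1, c2]
  have hcomm : ∀ x : A, ρ g⁻¹ (ρ (g * s * g⁻¹) x) = ρ s (ρ g⁻¹ x) := by
    intro x
    simp only [map_mul, Module.End.mul_apply, Representation.inv_self_apply]
  rw [Subgroup.coe_mul, hfgst, map_add, hcomm]

/-- Step 2: make `f (g, s)` vanish for `s ∈ S`, keeping `f (s, g) = 0`. -/
lemma step2 (hH1 : HOneVanishes ρ S) {f : G × G → A} (hf : IsTwoCocycle ρ f)
    (h1 : ∀ s ∈ S, ∀ g : G, f (s, g) = 0) :
    ∃ c : G → A, (∀ s ∈ S, ∀ g : G, (f - dOne ρ c) (s, g) = 0) ∧
      ∀ s ∈ S, ∀ g : G, (f - dOne ρ c) (g, s) = 0 := by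
  classical
  have hex : ∀ g : G, ∃ a : A, ∀ s : S, ρ g⁻¹ (f (g, (s : G))) = ρ s a - a := fun g =>
    hH1 (fun s => ρ g⁻¹ (f (g, (s : G)))) (fun s t => isOneCocycle_of_vanish_left ρ S hf h1 g s t)
  choose a ha using hex
  -- a' is constant on cosets and vanishes on `S`
  set a' : G → A := fun g => if g ∈ S then 0 else a (cosetRep S g) with ha'
  have ha'_right : ∀ g : G, ∀ s ∈ S, a' (g * s) = a' g := by
    intro g s hs
    simp only [ha', Subgroup.mul_mem_cancel_right S hs, cosetRep_mul_right S g hs]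
  have ha'_left : ∀ g : G, ∀ s ∈ S, a' (s * g) = a' g := by
    intro g s hs
    simp only [ha', Subgroup.mul_mem_cancel_left S hs, cosetRep_mul_left S g hs]
  have ha'_mem : ∀ s ∈ S, a' s = 0 := fun s hs => by simp [ha', hs]
  have key : ∀ g : G, ∀ s ∈ S, f (g, s) = ρ (g * s) (a' g) - ρ g (a' g) := by
    intro g s hs
    by_cases hg : g ∈ S
    · rw [h1 g hg s, ha'_mem g hg]; simp
    · have hr : a' g = a (cosetRep S g) := by simp [ha', hg]
      rw [hr]
      set r := cosetRep S g with hrdef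
      set t := r⁻¹ * g with htdef
      have ht : t ∈ S := cosetRep_inv_mul_mem S g
      have hgrt : g = r * t := by simp [htdef]
      -- (r, t, s): f (r t, s) + f (r, t) = ρ r (f (t, s)) + f (r, t s)
      have c := hf r t s
      rw [h1 t ht s, map_zero, zero_add, ← hgrt] at c
      have e1 := ha r ⟨t * s, S.mul_mem ht hs⟩
      have e2 := ha r ⟨t, ht⟩
      simp only [Subgroup.coe_mk] at e1 e2
      have e1' : f (r, t * s) = ρ r (ρ (t * s) (a r) - a r) := by
        rw [← e1, ← Module.End.mul_apply, ← map_mul]; simp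
      have e2' : f (r, t) = ρ r (ρ t (a r) - a r) := by
        rw [← e2, ← Module.End.mul_apply, ← map_mul]; simp
      have : f (g, s) = f (r, t * s) - f (r, t) := eq_sub_of_add_eq c
      rw [this, e1', e2', hgrt]
      simp only [map_sub, map_mul, Module.End.mul_apply]
      abel
  refine ⟨fun g => - ρ g (a' g), fun s hs g => ?_, fun s hs g => ?_⟩
  · simp only [Pi.sub_apply, dOne_apply, h1 s hs g, ha'_left g s hs, ha'_mem s hs, map_neg,
      map_zero, map_mul, Module.End.mul_apply]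
    abel
  · simp only [Pi.sub_apply, dOne_apply, key g s hs, ha'_right g s hs, ha'_mem s hs, map_neg,
      map_zero, map_mul, Module.End.mul_apply]
    abel

/-- Step 3: a cocycle vanishing on `S × G` and `G × S` is `S`-bi-invariant with values in
`A^S`. -/
lemma step3 {f : G × G → A} (hf : IsTwoCocycle ρ f)
    (h1 : ∀ s ∈ S, ∀ g : G, f (s, g) = 0) (h2 : ∀ s ∈ S, ∀ g : G, f (g, s) = 0) :
    (∀ s ∈ S, ∀ g h : G, f (g, h * s) = f (g, h)) ∧
    (∀ s ∈ S, ∀ g h : G, f (g * s, h) = f (g, h)) ∧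
    (∀ s ∈ S, ∀ g h : G, ρ s (f (g, h)) = f (g, h)) := by
  have hsnd : ∀ s ∈ S, ∀ g h : G, f (g, h * s) = f (g, h) := by
    intro s hs g h
    have c := hf g h s
    rw [h2 s hs (g * h), h2 s hs h, map_zero, zero_add, zero_add] at c
    exact c.symm
  have hleft : ∀ s ∈ S, ∀ g h : G, f (s * g, h) = ρ s (f (g, h)) := by
    intro s hs g h
    have c := hf s g h
    rw [h1 s hs g, h1 s hs (g * h), add_zero, add_zero] at c
    exact c
  have hfst : ∀ s ∈ S, ∀ g h : G, f (g * s, h) = f (g, h) := by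
    intro s hs g h
    have c := hf g s h
    rw [h2 s hs g, add_zero, h1 s hs h, map_zero, zero_add] at c
    rw [c]
    have : s * h = h * (h⁻¹ * s * h) := by group
    rw [this]
    exact hsnd _ (Subgroup.Normal.conj_mem' ‹S.Normal› _ hs _) g h
  refine ⟨hsnd, hfst, fun s hs g h => ?_⟩
  rw [← hleft s hs g h]
  have : s * g = g * (g⁻¹ * s * g) := by group
  rw [this]
  exact hfst _ (Subgroup.Normal.conj_mem' ‹S.Normal› _ hs _) g h

/-- **Inflation–restriction in degree 2, exactness at `H²(G, A)`** (cochain form). -/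
theorem exists_inflated_of_res_coboundary (hH1 : HOneVanishes ρ S) {f : G × G → A}
    (hf : IsTwoCocycle ρ f) (φ : S → A)
    (hφ : ∀ s t : S, f (s, t) = ρ s (φ t) - φ (s * t) + φ s) :
    ∃ (c : G → A) (f' : G × G → A), f = f' + dOne ρ c ∧ IsTwoCocycle ρ f' ∧
      (∀ s ∈ S, ∀ g h : G, f' (g, h * s) = f' (g, h)) ∧
      (∀ s ∈ S, ∀ g h : G, f' (g * s, h) = f' (g, h)) ∧
      (∀ s ∈ S, ∀ g h : G, ρ s (f' (g, h)) = f' (g, h)) := by
  obtain ⟨c0, h0⟩ := step0 ρ S φ hφ
  have hf0 : IsTwoCocycle ρ (f - dOne ρ c0) := hf.sub (isTwoCocycle_dOne ρ c0)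
  obtain ⟨c1, h1⟩ := step1 ρ S hf0 h0
  have hf1 : IsTwoCocycle ρ (f - dOne ρ c0 - dOne ρ c1) := hf0.sub (isTwoCocycle_dOne ρ c1)
  obtain ⟨c2, h2, h2'⟩ := step2 ρ S hH1 hf1 h1
  have hf2 : IsTwoCocycle ρ (f - dOne ρ c0 - dOne ρ c1 - dOne ρ c2) :=
    hf1.sub (isTwoCocycle_dOne ρ c2)
  obtain ⟨i1, i2, i3⟩ := step3 ρ S hf2 h2 h2'
  refine ⟨c0 + c1 + c2, f - dOne ρ c0 - dOne ρ c1 - dOne ρ c2, ?_, hf2, i1, i2, i3⟩
  funext ⟨g, h⟩
  simp only [Pi.add_apply, Pi.sub_apply, dOne_apply, map_add]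
  abel

/-- **Inflation–restriction in degree 2, injectivity of inflation** (cochain form): if an
`S`-bi-invariant `A^S`-valued function `f'` equals `dOne c`, then after correcting `c` by a
0-coboundary it becomes `S`-invariant with values in `A^S`. -/
theorem exists_invariant_cochain_of_inf_coboundary (hH1 : HOneVanishes ρ S) {f' : G × G → A}
    (hinv2 : ∀ s ∈ S, ∀ g h : G, f' (g, h * s) = f' (g, h))
    (hinv1 : ∀ s ∈ S, ∀ g h : G, f' (g * s, h) = f' (g, h))
    (hval : ∀ s ∈ S, ∀ g h : G, ρ s (f' (g, h)) = f' (g, h))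
    (c : G → A) (hc : f' = dOne ρ c) :
    ∃ c' : G → A, f' = dOne ρ c' ∧ (∀ s ∈ S, ∀ g : G, c' (g * s) = c' g) ∧
      (∀ s ∈ S, ∀ g : G, ρ s (c' g) = c' g) := by
  set e := f' (1, 1) with he
  have hfe : ∀ s ∈ S, ∀ t ∈ S, f' (s, t) = e := by
    intro s hs t ht
    have := hinv1 s hs 1 t
    rw [one_mul] at this
    rw [this]
    have := hinv2 t ht 1 1
    rwa [one_mul] at this
  have hρe : ∀ s ∈ S, ρ s e = e := fun s hs => hval s hs 1 1
  -- `c - e` restricted to `S` is a 1-cocycle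
  obtain ⟨a, ha⟩ := hH1 (fun s => c s - e) (by
    intro s t
    have h := hfe s s.2 t t.2
    rw [hc, dOne_apply] at h
    simp only [Subgroup.coe_mul, map_sub, hρe s s.2]
    have : c (↑s * ↑t) = ρ ↑s (c ↑t) + c ↑s - e := by rw [← h]; abel
    rw [this]; abel)
  have hcS : ∀ s ∈ S, c s - (ρ s a - a) = e := by
    intro s hs
    have := ha ⟨s, hs⟩
    simp only [Subgroup.coe_mk] at this
    rw [← this]; abel
  set c' : G → A := fun g => c g - (ρ g a - a) with hc'
  have hd : f' = dOne ρ c' := by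
    rw [hc]
    funext ⟨g, h⟩
    simp only [dOne_apply, hc', map_sub, map_mul, Module.End.mul_apply]
    abel
  have hc'S : ∀ s ∈ S, c' s = e := hcS
  have hc'1 : c' 1 = e := hc'S 1 S.one_mem
  have hfg1 : ∀ g : G, f' (g, 1) = ρ g e := by
    intro g
    have := congr_fun hd (g, 1)
    rw [dOne_apply, mul_one, hc'1] at this
    rw [this]; abel
  have hf1g : ∀ g : G, f' (1, g) = e := by
    intro g
    have := congr_fun hd (1, g)
    rw [dOne_apply, one_mul, hc'1, map_one, Module.End.one_apply] at this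
    rw [this]; abel
  have hright : ∀ s ∈ S, ∀ g : G, c' (g * s) = c' g := by
    intro s hs g
    have h1 := congr_fun hd (g, s)
    rw [dOne_apply, hc'S s hs] at h1
    have h2 := hinv2 s hs g 1
    rw [one_mul, hfg1 g] at h2
    rw [h2] at h1
    have h3 : c' g - c' (g * s) = 0 := by
      have := sub_eq_zero.2 h1.symm
      rw [← this]; abel
    exact (sub_eq_zero.1 h3).symm
  refine ⟨c', hd, hright, fun s hs g => ?_⟩
  have h1 := congr_fun hd (s, g)
  rw [dOne_apply, hc'S s hs] at h1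
  have h2 := hinv1 s hs 1 g
  rw [one_mul, hf1g g] at h2
  rw [h2] at h1
  have h3 : c' (s * g) = c' g := by
    have : s * g = g * (g⁻¹ * s * g) := by group
    rw [this]
    exact hright _ (Subgroup.Normal.conj_mem' ‹S.Normal› _ hs _) g
  rw [h3] at h1
  have h4 : ρ s (c' g) - c' g = 0 := by
    have := sub_eq_zero.2 h1.symm
    rw [← this]; abel
  exact sub_eq_zero.1 h4

end Steps

end Fermat.Agent.S55.H954
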