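import Mathlib
import Fermat.Agent.S55.H954.H2InfResCore

/-!
# Inflation–restriction exact sequence in degree 2 (Mathlib `groupCohomology`)

For `A : Rep k G`, `S ≤ G` normal with `H¹(S, A) = 0`:
`0 ⟶ H²(G ⧸ S, A^S) ⟶ H²(G, A) ⟶ H²(S, A)` is exact.
-/

set_option autoImplicit false
set_option linter.unusedSectionVars false

namespace Fermat.Agent.S55.H954

open CategoryTheory groupCohomology Rep

universe u

variable {k G : Type u} [CommRing k] [Group G]

section MapOne

variable {H : Type u} [Group H] {A : Rep k H} {B : Rep k G}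

/-- The map induced on `H²` by the trivial group homomorphism is zero. -/
theorem map₂_one (φ : res (1 : G →* H) A ⟶ B) : map (1 : G →* H) φ 2 = 0 := by
  rw [← cancel_epi (H2π A), H2π_comp_map, Limits.comp_zero]
  ext x
  simp only [ModuleCat.hom_comp, LinearMap.coe_comp, Function.comp_apply, ModuleCat.hom_zero,
    LinearMap.zero_apply]
  rw [H2π_eq_zero_iff]
  refine ⟨fun _ => φ.hom (x (1, 1)), ?_⟩
  funext ⟨g, h⟩
  have := hom_comm_apply φ g (x (1, 1))
  rw [d₁₂_hom_apply]
  change _ = φ.hom (x ((1 : G →* H) g, (1 : G →* H) h))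
  rw [← this]
  have h1 : (res (1 : G →* H) A).ρ g (x (1, 1)) = x (1, 1) := by
    change A.ρ ((1 : G →* H) g) (x (1, 1)) = x (1, 1)
    simp
  rw [h1]
  simp

end MapOne

section InfRes

variable (A : Rep k G) (S : Subgroup G) [S.Normal]

/-- The short complex `H²(G ⧸ S, A^S) ⟶ H²(G, A) ⟶ H²(S, A)`. -/
@[simps X₁ X₂ X₃ f g]
noncomputable def H2InfRes : ShortComplex (ModuleCat k) where
  X₁ := groupCohomology (A.quotientToInvariants S) 2
  X₂ := groupCohomology A 2
  X₃ := groupCohomology (res S.subtype A) 2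
  f := map (QuotientGroup.mk' S) (ofHom <| A.ρ.quotientToInvariants_lift S) 2
  g := map S.subtype (𝟙 _) 2
  zero := by rw [← map_comp, Category.comp_id, groupCohomology.congr (QuotientGroup.mk'_comp_subtype S)
    (fun f φ => map f φ 2), map₂_one]

variable {A S}

lemma hOneVanishes_of_H1_eq_zero (h : ∀ x : H1 (res S.subtype A), x = 0) :
    HOneVanishes A.ρ S := by
  intro w hw
  have hmem : w ∈ cocycles₁ (res S.subtype A) :=
    (mem_cocycles₁_iff (A := res S.subtype A) w).2 (fun s t => hw s t)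
  have h0 := h (H1π _ ⟨w, hmem⟩)
  rw [H1π_eq_zero_iff] at h0
  obtain ⟨a, ha⟩ := h0
  refine ⟨a, fun s => ?_⟩
  have := congr_fun ha s
  rw [d₀₁_hom_apply] at this
  exact this.symm

variable (A S)

set_option backward.defeqAttrib.useBackward true in
set_option backward.isDefEq.respectTransparency false in
/-- **Inflation–restriction in degree 2**: if `H¹(S, A) = 0`, then
`H²(G ⧸ S, A^S) ⟶ H²(G, A) ⟶ H²(S, A)` is exact. -/
theorem H2InfRes_exact (h : ∀ x : H1 (res S.subtype A), x = 0) : (H2InfRes A S).Exact := by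
  rw [ShortComplex.moduleCat_exact_iff_ker_sub_range]
  intro x hx
  induction x using H2_induction_on with | @h x =>
  simp_all only [H2InfRes_X₂, H2InfRes_X₃, H2InfRes_g, H2InfRes_X₁, LinearMap.mem_ker,
    H2π_comp_map_apply S.subtype, H2InfRes_f]
  obtain ⟨(φ : S → A), hφ⟩ := (H2π_eq_zero_iff _).1 hx
  have hcoc : IsTwoCocycle A.ρ x := (mem_cocycles₂_iff _).1 x.2
  have hφ' : ∀ s t : S, x ((s : G), (t : G)) = A.ρ s (φ t) - φ (s * t) + φ s := by
    intro s t
    have := congr_fun hφ (s, t)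
    rw [d₁₂_hom_apply] at this
    exact this.symm
  obtain ⟨c, f', hff', hf'coc, i2, i1, i3⟩ :=
    exists_inflated_of_res_coboundary A.ρ S (hOneVanishes_of_H1_eq_zero h) hcoc φ hφ'
  -- the descended cocycle on `G ⧸ S` with values in `A^S`
  have hwd : ∀ g₁ h₁ g₂ h₂ : G, QuotientGroup.leftRel S g₁ g₂ → QuotientGroup.leftRel S h₁ h₂ →
      f' (g₁, h₁) = f' (g₂, h₂) := by
    intro g₁ h₁ g₂ h₂ hg hh
    rw [QuotientGroup.leftRel_apply] at hg hh
    have e1 : g₂ = g₁ * (g₁⁻¹ * g₂) := by group
    have e2 : h₂ = h₁ * (h₁⁻¹ * h₂) := by group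
    rw [e1, e2, i1 _ hg, i2 _ hh]
  have hinvar : ∀ g h : G, f' (g, h) ∈ Representation.invariants (A.ρ.comp S.subtype) := by
    intro g h s
    exact i3 s s.2 g h
  let fbar : (G ⧸ S) × (G ⧸ S) → (A.quotientToInvariants S) := fun p =>
    Quotient.liftOn₂' p.1 p.2 (fun g h => (⟨f' (g, h), hinvar g h⟩ : (A.quotientToInvariants S)))
      (fun g₁ h₁ g₂ h₂ hg hh => Subtype.ext (hwd g₁ h₁ g₂ h₂ hg hh))
  have hfbar : fbar ∈ cocycles₂ (A.quotientToInvariants S) := by
    rw [mem_cocycles₂_iff]
    intro g h j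
    induction g using QuotientGroup.induction_on with | @H g =>
    induction h using QuotientGroup.induction_on with | @H h =>
    induction j using QuotientGroup.induction_on with | @H j =>
    apply Subtype.ext
    exact hf'coc g h j
  refine ⟨H2π _ ⟨fbar, hfbar⟩, ?_⟩
  rw [H2π_comp_map_apply (QuotientGroup.mk' S), H2π_eq_iff]
  refine ⟨-c, ?_⟩
  funext ⟨g, j⟩
  have := congr_fun hff' (g, j)
  rw [d₁₂_hom_apply]
  change _ = f' (g, j) - x (g, j)
  rw [this]
  simp only [Pi.add_apply, dOne_apply, Pi.neg_apply, map_neg]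
  abel

set_option backward.defeqAttrib.useBackward true in
set_option backward.isDefEq.respectTransparency false in
/-- **Inflation–restriction in degree 2**: if `H¹(S, A) = 0`, then the inflation map
`H²(G ⧸ S, A^S) ⟶ H²(G, A)` is a monomorphism. -/
theorem H2InfRes_mono (h : ∀ x : H1 (res S.subtype A), x = 0) : Mono (H2InfRes A S).f := by
  rw [ModuleCat.mono_iff_injective, injective_iff_map_eq_zero]
  intro x hx
  induction x using H2_induction_on with | @h x =>
  simp_all only [H2InfRes_X₂, H2InfRes_X₁, H2InfRes_f, H2π_comp_map_apply (QuotientGroup.mk' S)]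
  obtain ⟨(c : G → A), hc⟩ := (H2π_eq_zero_iff _).1 hx
  set f' : G × G → A := fun p => ((x ((p.1 : G ⧸ S), (p.2 : G ⧸ S)) : A.quotientToInvariants S) : A)
    with hf'
  have hc' : f' = dOne A.ρ c := by
    funext ⟨g, j⟩
    have := congr_fun hc (g, j)
    rw [d₁₂_hom_apply] at this
    rw [dOne_apply, this]
    rfl
  have hq : ∀ s ∈ S, ∀ g : G, ((g * s : G) : G ⧸ S) = (g : G ⧸ S) := by
    intro s hs g
    rw [QuotientGroup.mk_mul, (QuotientGroup.eq_one_iff s).2 hs, mul_one]
  obtain ⟨c', hd, hright, hval⟩ := exists_invariant_cochain_of_inf_coboundary A.ρ S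
    (hOneVanishes_of_H1_eq_zero h) (f' := f')
    (fun s hs g j => by simp only [hf', hq s hs])
    (fun s hs g j => by simp only [hf', hq s hs])
    (fun s hs g j => (x ((g : G ⧸ S), (j : G ⧸ S))).2 ⟨s, hs⟩) c hc'
  rw [H2π_eq_zero_iff]
  refine ⟨fun q => Quotient.liftOn' q
    (fun g => (⟨c' g, fun s => hval s s.2 g⟩ : (A.quotientToInvariants S)))
    (fun g₁ g₂ hg => Subtype.ext ?_), ?_⟩
  · rw [QuotientGroup.leftRel_apply] at hg
    have e1 : g₂ = g₁ * (g₁⁻¹ * g₂) := by group
    change c' g₁ = c' g₂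
    rw [e1, hright _ hg]
  · funext ⟨g, j⟩
    induction g using QuotientGroup.induction_on with | @H g =>
    induction j using QuotientGroup.induction_on with | @H j =>
    apply Subtype.ext
    have := congr_fun hd (g, j)
    rw [d₁₂_hom_apply]
    exact this.symm

/-- Elementwise form: a class in `H²(G, A)` restricting to `0` on `S` is inflated from
`H²(G ⧸ S, A^S)`, provided `H¹(S, A) = 0`. -/
theorem exists_inf_eq_of_res_eq_zero (h : ∀ x : H1 (res S.subtype A), x = 0)
    (x : H2 A) (hx : map S.subtype (𝟙 (res S.subtype A)) 2 x = 0) :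
    ∃ y : H2 (A.quotientToInvariants S),
      map (QuotientGroup.mk' S) (ofHom <| A.ρ.quotientToInvariants_lift S) 2 y = x := by
  have hex := H2InfRes_exact A S h
  rw [ShortComplex.moduleCat_exact_iff_ker_sub_range] at hex
  exact hex (LinearMap.mem_ker.2 hx)

/-- Elementwise form: inflation `H²(G ⧸ S, A^S) → H²(G, A)` is injective if `H¹(S, A) = 0`. -/
theorem inf_injective (h : ∀ x : H1 (res S.subtype A), x = 0) :
    Function.Injective
      (map (QuotientGroup.mk' S) (ofHom <| A.ρ.quotientToInvariants_lift S) 2 :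
        H2 (A.quotientToInvariants S) → H2 A) := by
  have := H2InfRes_mono A S h
  exact (ModuleCat.mono_iff_injective _).1 this

end InfRes

end Fermat.Agent.S55.H954
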