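import Mathlib
import Fermat.Agent.S55.H954.H2InfRes

/-!
# Dévissage along a normal subgroup (degrees 1 and 2)

`A : Rep k G`, `N ⊴ G`.

* `H1_eq_zero_of_normal`: `H¹(N, A) = 0` and `H¹(G ⧸ N, A^N) = 0` imply `H¹(G, A) = 0`.
* `card_H2_dvd_of_normal`: if moreover `H²(N, A)` and `H²(G ⧸ N, A^N)` are finite, then `H²(G, A)`
  is finite and `|H²(G, A)|` divides `|H²(G ⧸ N, A^N)| * |H²(N, A)|`.

These are the induction steps in the proof that a module whose prime-degree cyclic subquotients
satisfy `H¹ = 0`, `|H²| ∣ p` satisfies `H¹ = 0`, `|H²| ∣ |G|` (local and global class field theory).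
-/

set_option autoImplicit false
set_option linter.unusedSectionVars false
set_option linter.style.haveILetI false

namespace Fermat.Agent.S55.H954

open CategoryTheory groupCohomology Rep

section Counting

variable {X₁ X₂ X₃ : Type*} [AddCommGroup X₁] [AddCommGroup X₂] [AddCommGroup X₃]

/-- Counting in a left exact sequence `0 → X₁ → X₂ → X₃` of abelian groups. -/
theorem finite_and_card_dvd_of_exact (f : X₁ →+ X₂) (g : X₂ →+ X₃)
    (hf : Function.Injective f) (hex : ∀ x, g x = 0 → ∃ y, f y = x)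
    [Finite X₁] [Finite X₃] :
    Finite X₂ ∧ Nat.card X₂ ∣ Nat.card X₁ * Nat.card X₃ := by
  have hker : g.ker ≤ f.range := fun x hx => by
    obtain ⟨y, hy⟩ := hex x (AddMonoidHom.mem_ker.1 hx)
    exact ⟨y, hy⟩
  haveI hfr : Finite f.range := Finite.of_surjective (fun y : X₁ => (⟨f y, y, rfl⟩ : f.range))
    (fun ⟨_, y, rfl⟩ => ⟨y, rfl⟩)
  haveI : Finite g.ker := Finite.of_injective (fun x : g.ker => (⟨x.1, hker x.2⟩ : f.range))
    (fun a b h => Subtype.ext (by simpa using congrArg Subtype.val h))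
  haveI : Finite g.range := inferInstance
  have e := QuotientAddGroup.quotientKerEquivRange g
  haveI : Finite (X₂ ⧸ g.ker) := Finite.of_equiv _ e.symm.toEquiv
  haveI hX₂ : Finite X₂ := by
    have := AddSubgroup.card_eq_card_quotient_mul_card_addSubgroup g.ker
    refine Nat.finite_of_card_ne_zero ?_
    rw [this]
    exact Nat.mul_ne_zero Nat.card_pos.ne' Nat.card_pos.ne'
  refine ⟨hX₂, ?_⟩
  rw [AddSubgroup.card_eq_card_quotient_mul_card_addSubgroup g.ker, mul_comm]
  refine Nat.mul_dvd_mul ?_ ?_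
  · -- `|ker g| ∣ |X₁|`: `ker g` is a subgroup of `range f ≅ X₁`
    have h1 : Nat.card g.ker ∣ Nat.card f.range := by
      have := AddSubgroup.card_dvd_of_le hker
      simpa using this
    have h2 : Nat.card f.range = Nat.card X₁ :=
      (Nat.card_congr (AddMonoidHom.ofInjective hf).toEquiv).symm
    rwa [h2] at h1
  · rw [Nat.card_congr e.toEquiv]
    exact AddSubgroup.card_addSubgroup_dvd_card g.range

end Counting

universe u

variable {k G : Type u} [CommRing k] [Group G] (A : Rep k G) (N : Subgroup G) [N.Normal]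

/-- Dévissage for `H¹`: if `H¹(N, A) = 0` and `H¹(G ⧸ N, A^N) = 0` then `H¹(G, A) = 0`. -/
theorem H1_eq_zero_of_normal (hN : ∀ x : H1 (res N.subtype A), x = 0)
    (hQ : ∀ x : H1 (A.quotientToInvariants N), x = 0) (x : H1 A) : x = 0 := by
  have hex := H1InfRes_exact A N
  rw [ShortComplex.moduleCat_exact_iff_ker_sub_range] at hex
  obtain ⟨y, hy⟩ := hex (LinearMap.mem_ker.2 (hN ((H1InfRes A N).g.hom x)))
  have hy0 : y = 0 := hQ y
  rw [← hy, hy0]
  exact map_zero (H1InfRes A N).f.hom

/-- Dévissage for `H²`: if `H¹(N, A) = 0` and `H²(N, A)`, `H²(G ⧸ N, A^N)` are finite, then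
`H²(G, A)` is finite and its order divides `|H²(G ⧸ N, A^N)| * |H²(N, A)|`. -/
theorem card_H2_dvd_of_normal (hN : ∀ x : H1 (res N.subtype A), x = 0)
    [Finite (H2 (res N.subtype A))] [Finite (H2 (A.quotientToInvariants N))] :
    Finite (H2 A) ∧
      Nat.card (H2 A) ∣ Nat.card (H2 (A.quotientToInvariants N)) * Nat.card (H2 (res N.subtype A)) :=
  finite_and_card_dvd_of_exact
    (X₁ := H2 (A.quotientToInvariants N)) (X₂ := H2 A) (X₃ := H2 (res N.subtype A))
    (H2InfRes A N).f.hom.toAddMonoidHom (H2InfRes A N).g.hom.toAddMonoidHom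
    (inf_injective A N hN)
    (fun x hx => exists_inf_eq_of_res_eq_zero A N hN x hx)

/-- Combined form with explicit bounds. -/
theorem H2_card_dvd_mul_of_normal (hN : ∀ x : H1 (res N.subtype A), x = 0) {a b : ℕ}
    (hfN : Finite (H2 (res N.subtype A))) (hfQ : Finite (H2 (A.quotientToInvariants N)))
    (ha : Nat.card (H2 (res N.subtype A)) ∣ a)
    (hb : Nat.card (H2 (A.quotientToInvariants N)) ∣ b) :
    Finite (H2 A) ∧ Nat.card (H2 A) ∣ b * a := by
  obtain ⟨h1, h2⟩ := card_H2_dvd_of_normal A N hN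
  exact ⟨h1, h2.trans (Nat.mul_dvd_mul hb ha)⟩

end Fermat.Agent.S55.H954
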