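import Mathlib
import Fermat.Agent.S55.H119.ResCoresCor

/-!
# Sylow dévissage for `H¹` and `H²` (cardinality form)

`G` finite, `A : Rep k G`.

* `H1_eq_zero_of_sylow`: if for every prime `p` some Sylow `p`-subgroup `P` has `H¹(P, A) = 0`,
  then `H¹(G, A) = 0`.
* `card_H2_dvd_card_of_sylow`: if for every prime `p ∣ |G|` some Sylow `p`-subgroup `P` has
  `H²(P, A)` finite of order dividing `|P|`, then `H²(G, A)` is finite of order dividing `|G|`.
-/

set_option autoImplicit false
set_option linter.unusedSectionVars false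
set_option linter.style.haveILetI false

namespace Fermat.Agent.S55.H954

open CategoryTheory groupCohomology Rep Fermat.Agent.S55.H119

universe u

variable {k G : Type u} [CommRing k] [Group G] (A : Rep k G)

/-- `H²` of a group of order one vanishes. -/
theorem H2_eq_zero_of_card_eq_one [Finite G] (h : Nat.card G = 1) (x : H2 A) : x = 0 := by
  have := card_nsmul_eq_zero_two A x
  rwa [h, one_smul] at this

/-- `H¹` of a group of order one vanishes. -/
theorem H1_eq_zero_of_card_eq_one [Finite G] (h : Nat.card G = 1) (x : H1 A) : x = 0 := by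
  have := card_nsmul_eq_zero_one A x
  rwa [h, one_smul] at this

/-- Sylow dévissage for `H¹`. -/
theorem H1_eq_zero_of_sylow [Finite G]
    (h : ∀ p : ℕ, p.Prime → ∃ P : Sylow p G,
      ∀ y : H1 (res (P : Subgroup G).subtype A), y = 0) (x : H1 A) : x = 0 :=
  eq_zero_of_forall_sylow_resMap_eq_zero_one A x fun p hp => by
    obtain ⟨P, hP⟩ := h p hp
    exact ⟨P, hP _⟩

/-- Sylow dévissage for `H²`, cardinality form. -/
theorem card_H2_dvd_card_of_sylow [Finite G]
    (h : ∀ p : ℕ, p.Prime → p ∣ Nat.card G → ∃ P : Sylow p G,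
      Finite (H2 (res (P : Subgroup G).subtype A)) ∧
      Nat.card (H2 (res (P : Subgroup G).subtype A)) ∣ Nat.card (P : Subgroup G)) :
    Finite (H2 A) ∧ Nat.card (H2 A) ∣ Nat.card G := by
  classical
  set F := (Nat.card G).primeFactors with hFdef
  have hF : ∀ p : F, ∃ P : Sylow p.1 G,
      Finite (H2 (res (P : Subgroup G).subtype A)) ∧
      Nat.card (H2 (res (P : Subgroup G).subtype A)) ∣ Nat.card (P : Subgroup G) := fun p =>
    h p.1 (Nat.prime_of_mem_primeFactors p.2) (Nat.dvd_of_mem_primeFactors p.2)
  choose P hPfin hPcard using hF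
  haveI : ∀ p : F, Finite (H2 (res (P p : Subgroup G).subtype A)) := hPfin
  let ρ : H2 A →+ ∀ p : F, H2 (res (P p : Subgroup G).subtype A) :=
    { toFun := fun x p => resMap A (P p : Subgroup G) 2 x
      map_zero' := by funext p; exact map_zero _
      map_add' := fun x y => by funext p; exact map_add _ x y }
  have hinj : Function.Injective ρ := by
    rw [injective_iff_map_eq_zero]
    intro x hx
    refine eq_zero_of_forall_sylow_resMap_eq_zero_two A x fun p hp => ?_
    by_cases hpF : p ∈ F
    · exact ⟨P ⟨p, hpF⟩, congr_fun hx ⟨p, hpF⟩⟩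
    · haveI : Fact p.Prime := ⟨hp⟩
      obtain ⟨Q⟩ : Nonempty (Sylow p G) := inferInstance
      refine ⟨Q, ?_⟩
      have hcard : Nat.card (Q : Subgroup G) = 1 := by
        rw [Sylow.card_eq_multiplicity]
        have : (Nat.card G).factorization p = 0 := by
          rw [← Finsupp.notMem_support_iff, Nat.support_factorization]
          exact hpF
        rw [this, pow_zero]
      exact H2_eq_zero_of_card_eq_one (res (Q : Subgroup G).subtype A) hcard _
  haveI : Finite (H2 A) := Finite.of_injective ρ hinj
  refine ⟨inferInstance, ?_⟩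
  have h1 : Nat.card (H2 A) = Nat.card ρ.range :=
    Nat.card_congr (AddMonoidHom.ofInjective hinj).toEquiv
  have h2 : Nat.card ρ.range ∣ Nat.card (∀ p : F, H2 (res (P p : Subgroup G).subtype A)) :=
    AddSubgroup.card_addSubgroup_dvd_card ρ.range
  have h3 : Nat.card (∀ p : F, H2 (res (P p : Subgroup G).subtype A)) =
      ∏ p : F, Nat.card (H2 (res (P p : Subgroup G).subtype A)) := Nat.card_pi
  have h4 : (∏ p : F, Nat.card (H2 (res (P p : Subgroup G).subtype A))) ∣
      ∏ p : F, Nat.card (P p : Subgroup G) :=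
    Finset.prod_dvd_prod_of_dvd _ _ (fun p _ => hPcard p)
  have h5 : (∏ p : F, Nat.card (P p : Subgroup G)) = Nat.card G := by
    have hne : Nat.card G ≠ 0 := Nat.card_pos.ne'
    conv_rhs => rw [← Nat.prod_factorization_pow_eq_self hne]
    rw [Finsupp.prod, Nat.support_factorization, ← hFdef, ← Finset.prod_coe_sort F]
    refine Finset.prod_congr rfl (fun p _ => ?_)
    haveI : Fact p.1.Prime := ⟨Nat.prime_of_mem_primeFactors p.2⟩
    exact Sylow.card_eq_multiplicity (P p)
  rw [h1]
  exact h2.trans (h3 ▸ h4.trans (dvd_of_eq h5))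

end Fermat.Agent.S55.H954
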